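import Fermat.Agent.Engine.FlatAux
import Fermat.Agent.RowS56.Vanishing.Image
import Fermat.Agent.General.Three.AuxU

/-!
# Flat auxiliary levels at an odd prime, with ramification allowed at primes that admit none
-/

noncomputable section

open IsLocalRing GaloisRep Fermat.Agent.DefRing Fermat.Agent.Deform
open Fermat.Agent.Engine Fermat.Agent.RowS56

namespace Fermat.Agent.General.Lower

local notation "Qbar" => AlgebraicClosure ℚ

section Build

variable {O : Type} [CommRing O] [IsLocalRing O] [IsDomain O] [CharZero O] [IsNoetherianRing O]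
  [IsAdicComplete (maximalIdeal O) O] [Finite (ResidueField O)]

/-- **Flat auxiliary levels exist**, the kernel at level `n` depending on the auxiliary primes
through their set. -/
theorem exists_flat_auxLevels_oddU (p : ℕ) [Fact p.Prime] (hp : p ≠ 2)
    [CharP (ResidueField O) p] (hinv : GalCoh.Reciprocity p) (hGW : GalCoh.GreenbergWilesLe p)
    (L₀ : LevelData O) (PB : L₀.RepRing) (h₀ : L₀.IsResidual)
    (habs : ∀ (K : Type) [Field K] [Algebra (ResidueField O) K] (G : Subgroup GQ),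
      G.index = 1 ∨ G.index = 2 → ∀ V : Submodule K (Fin 2 → K),
        (∀ σ ∈ G, ∀ x ∈ V,
          ((L₀.D.rbar σ).map (algebraMap (ResidueField O) K)).mulVec x ∈ V) → V = ⊥ ∨ V = ⊤)
    (χ : GQ → ResidueField O) (hχ : IsCyclotomicModP p χ)
    (hdet : ∀ σ, (L₀.D.rbar σ).det = χ σ)
    (atP : CondAtP L₀.D.rbar p)
    (hatP : ∀ c : GQ → Matrix (Fin 2) (Fin 2) (ResidueField O), IsAdCocycle L₀.D.rbar c →
      ∀ N : Subgroup GQ, FlatJ0.IsBoundKernel atP.place p N L₀.D.rbar → (∀ σ ∈ N, c σ = 0) →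
        (fun g : atP.place.decompositionSubgroup ℚ => c g) ∈ atP.cond)
    (N : Finset ℕ → Subgroup GQ)
    (hN : ∀ Q : Finset ℕ, (∀ q ∈ Q, q.Prime ∧ q ≠ p) →
      FlatJ0.IsBoundKernel atP.place p (N Q) L₀.D.rbar)
    (T : Finset ℕ) (hpS : p ∉ L₀.Smin ∧ p ∉ T) (hdisj : Disjoint L₀.Smin T)
    (hprime : ∀ q ∈ L₀.Smin ∪ T, q.Prime) (U : Finset ℕ)
    (hU : ∀ R ∈ U, R ≠ p ∧ (R : ResidueField O) = -1 ∧
      (∀ A : ValuationSubring Qbar, A.LiesOverPrime R →
        ∀ σ ∈ A.inertiaSubgroupIn ℚ, L₀.D.rbar σ = 1) ∧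
      ∀ A : ValuationSubring Qbar, A.LiesOverPrime R → ∀ φ : GQ, A.IsFrobeniusAt φ R →
        (L₀.D.rbar φ).trace ≠ 0)
    (hSigma : L₀.Sigma = L₀.Smin ∪ (T ∪ U) ∪ {p})
    (hram : ∀ q ∈ L₀.Smin, ∃ A : ValuationSubring Qbar, A.LiesOverPrime q ∧
      ∃ σ ∈ A.inertiaSubgroupIn ℚ, L₀.D.rbar σ ≠ 1)
    (hunr : ∀ q : ℕ, q.Prime → q ∉ L₀.Smin → q ≠ p →
      ∀ A : ValuationSubring Qbar, A.LiesOverPrime q →
        ∀ σ ∈ A.inertiaSubgroupIn ℚ, L₀.D.rbar σ = 1)
    (C : LocalChoices T) (hC : C.Valid p) (r₀ : T) (Φ₀ : T → Matrix (Fin 2) (Fin 2) O)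
    (hΦ₀ : ∀ v, (Φ₀ v).map (residue O) = L₀.D.rbar (C.frob v)) :
    ∃ r, T.card ≤ r ∧ ∃ (Q : ℕ → Fin r → ℕ) (X : AuxLevels r r₀ C.frob C.tame Φ₀ L₀ PB),
      AuxPrimes p X Q ∧ FlatLevelsNil p X fun n => N (Finset.univ.image (Q n)) := by
  let : Algebra (ZMod p) (ResidueField O) := ZMod.algebra _ p
  have hvan : TW.H1Vanishing p L₀.D.rbar := fun y hy hker =>
    mem_B1_of_kills_rhoKer hχ hdet h₀.cont.finite_level habs hp hy hker
  obtain ⟨r, hr, hQ⟩ := exists_taylorWiles_system_of_h1 p hp hinv hGW L₀.D.rbar h₀.cont.finite_level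
    habs χ hχ hdet hvan atP L₀.Smin T hpS hdisj hprime h₀.eqs.unipotent hram hunr C hC
  choose S hcard hS hbound using hQ
  let Q : ℕ → Fin r → ℕ := fun n i => ((S n).equivFinOfCardEq (hcard n)).symm i
  have hQmem : ∀ n i, Q n i ∈ S n := fun n i => (((S n).equivFinOfCardEq (hcard n)).symm i).2
  have himage : ∀ n, Finset.univ.image (Q n) = S n := fun n => Finset.ext fun q => by
    simp only [Finset.mem_image, Finset.mem_univ, true_and]
    exact ⟨fun ⟨i, hi⟩ => hi ▸ hQmem n i,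
      fun hq => ⟨(S n).equivFinOfCardEq (hcard n) ⟨q, hq⟩, by simp [Q]⟩⟩
  have h2 : (2 : ResidueField O) ≠ 0 := fun h => by
    have h' : ((2 : ℕ) : ResidueField O) = 0 := by simpa using h
    exact hp ((Nat.prime_dvd_prime_iff_eq Fact.out Nat.prime_two).mp
      ((CharP.cast_eq_zero_iff _ p 2).mp h'))
  refine ⟨r, hr, Q, exists_flat_auxLevels p h2 L₀ PB h₀ atP hatP T C r₀
    (fun v => ?_) Φ₀ hΦ₀ Q
    (fun n i j h => ((S n).equivFinOfCardEq (hcard n)).symm.injective (Subtype.ext h))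
    (fun n i => (hS n _ (hQmem n i)).1) (fun n i => (hS n _ (hQmem n i)).2.2.1) (fun n i => ?_)
    (fun n i => (hS n _ (hQmem n i)).2.2.2.1) (fun n i => (hS n _ (hQmem n i)).2.2.2.2)
    (fun n W hW => hbound n W fun x hx => ?_) (fun n => N (Finset.univ.image (Q n)))
    fun n => hN _ fun q hq => ?_⟩
  · obtain ⟨A, hA, -, hin, -⟩ := hC v
    exact hunr _ (hprime _ (Finset.mem_union_right _ v.2))
      (fun h => Finset.disjoint_left.1 hdisj h v.2) (fun h => hpS.2 (h ▸ v.2)) A hA _ hin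
  · obtain ⟨-, h1, h2', h3, -⟩ := hS n _ (hQmem n i)
    have hQU := Three.notMem_of_dvd_sub_one hp U hU (hS n _ (hQmem n i)).1 h3
    simp only [hSigma, Finset.mem_union, Finset.mem_singleton, not_or] at h1 ⊢
    exact ⟨⟨h1.1, h1.2, hQU⟩, h2'⟩
  · refine IsTangentPair.erase_aux hp h₀.cont.finite_level U hU (IsTangentPair.mono ?_ (hW x hx))
    rw [himage, hSigma]
    intro q hq
    simp only [Finset.mem_union, Finset.mem_singleton] at hq ⊢
    tauto
  · rw [himage] at hq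
    exact ⟨(hS n q hq).1, (hS n q hq).2.2.1⟩

end Build

end Fermat.Agent.General.Lower

end
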