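import Fermat.Agent.General.Lower.Tail
import Fermat.Agent.General.Three.PlaceAux
import Fermat.Agent.General.Lower.FlatAux
import Fermat.Agent.General.FlatSS
import Fermat.Agent.General.Top.PlaceOdd
import Fermat.Agent.Engine.Top.Lowering
import Fermat.Agent.Engine.Top.LoweringFinal

/-!
# Lowering at `q ≡ 1 (mod 3)` in the two cases at `3`

The level `M r` has the auxiliary prime `r ≡ 2 (mod 3)` of non-zero trace of Frobenius.  Good
ordinary and multiplicative reduction: the ordinary condition, the defect of the unit root being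
zero residually.  Supersingular reduction: the flat condition, `3` prime to the level.
-/

noncomputable section

open IsLocalRing Fermat.Agent.DefRing Fermat.Agent.Deform Fermat.Agent.FlatJ0 Fermat.Agent.EigenRep
  ModularCurve

namespace Fermat.Agent.General.Lower

open Engine Engine.Top HeckeModule TRep

local notation "Qbar" => AlgebraicClosure ℚ

/-- Ordinary good reduction makes the trace of Frobenius prime to `p`. -/
theorem not_dvd_of_isGoodOrdinary {W : WeierstrassCurve ℤ} {p : ℕ} [Fact p.Prime]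
    [(W.map (Int.castRingHom ℚ)).IsElliptic] (h : EllLocal.IsGoodOrdinary W p) :
    ¬ (p : ℤ) ∣ W.apOfModel p := by
  obtain ⟨A, σ, hA, hσ⟩ :=
    Frobenius.exists_liesOverPrime_and_isFrobeniusAt_qbar (Fact.out : p.Prime)
  obtain ⟨b, hb₀, hb₁⟩ :=
    EllLocal.exists_ordinary_basis hA h.1 ((EllLocal.ordinaryRedAt_iff hA h.1).2 h)
  exact EllLocal.not_dvd_apOfModel hA h.1 hb₀ hb₁ hσ

variable {W : WeierstrassCurve ℤ} {p : ℕ} [Fact p.Prime] {C : Coeff p}

theorem sq_sub_one_eq_zero_three : ∀ x : ZMod 3, x ≠ 0 → x ^ 2 - 1 = 0 := by decide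

/-- At `p = 3` the defect of the unit root vanishes residually. -/
theorem defect_rbar_three (hp : p = 3) (R : ResidualData W C) (Ch : PlaceChoice C)
    (h : OddResidual W p) (hcase : ¬ W.IsGoodPrimeFor p ∨ ¬ (p : ℤ) ∣ W.apOfModel p) :
    Ch.defect R.D.rbar = 0 := by
  by_cases hgood : W.IsGoodPrimeFor p
  · have hap := hcase.resolve_left (not_not.2 hgood)
    rw [R.defect_rbar_good Ch h hgood hap,
      show (W.apOfModel p : ResidueField C.O) ^ 2 - 1 =
        ((W.apOfModel p ^ 2 - 1 : ℤ) : ResidueField C.O) by push_cast; rfl,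
      CharP.intCast_eq_zero_iff (ResidueField C.O) p]
    subst hp
    refine (ZMod.intCast_zmod_eq_zero_iff_dvd _ 3).mp ?_
    push_cast
    exact sq_sub_one_eq_zero_three _ fun h0 => hap ((ZMod.intCast_zmod_eq_zero_iff_dvd _ 3).mp h0)
  · exact R.defect_rbar_mult Ch h hgood

variable (R : ResidualData W C) (h : OddResidual W p) (hp : p = 3) {M q r : ℕ} [NeZero (M * r)]
  (hMr : Squarefree (M * r)) (hr : r.Prime) (hrp : r ≠ p) (hr3 : r % 3 = 2)
  (hru : Unramified W p r)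
  (htr0 : ∀ A : ValuationSubring Qbar, A.LiesOverPrime r → ∀ φ : GQ, A.IsFrobeniusAt φ r →
    (R.D.rbar φ).trace ≠ 0)
  (hqT : q ∈ extraPrimes W p M) (hone : ∀ w ∈ extraPrimes W p M, p ∣ w - 1)
  (hgp : W.IsGoodPrimeFor p → ¬ p ∣ M) (a : ℕ → ℤ)
  (ha : ∀ ℓ : ℕ, ℓ.Prime → W.IsGoodPrimeFor ℓ → a ℓ = W.apOfModel ℓ)
  (htr : ∀ ℓ : ℕ, ℓ.Prime → ¬ ℓ ∣ M * r → ℓ ≠ p → ∀ A : ValuationSubring Qbar, A.LiesOverPrime ℓ →
      ∀ σ : GQ, A.IsFrobeniusAt σ ℓ →
        WeierstrassCurve.Affine.Point.galoisTrace ℚ (W.map (Int.castRingHom ℚ)) p σ =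
          (a ℓ : ZMod p))
  {f : CuspForm (CongruenceSubgroup.Gamma0 (M * r)) 2} (hf : f.IsNormalizedEigenform)
  {𝔪 : Ideal (integralClosure ℤ ℂ)} (h𝔪 : 𝔪.IsMaximal) (hp𝔪 : (p : integralClosure ℤ ℂ) ∈ 𝔪)
  (hcong : ∀ ℓ : ℕ, ℓ.Prime → ¬ ℓ ∣ M * r → ℓ ≠ p → ∃ c : integralClosure ℤ ℂ,
      (c : ℂ) = ModularFormClass.qCoeff f ℓ ∧ c - (a ℓ : integralClosure ℤ ℂ) ∈ 𝔪)

include R h hp hMr hr hrp hr3 hru htr0 hqT hone hgp ha htr hf h𝔪 hp𝔪 hcong

/-- **Lowering, `p = 3`, every superfluous prime `≡ 1 (mod 3)`.** -/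
theorem lowering_one_three : W.IsResiduallyModularOfLevel p (M * r / q) := by
  classical
  have hpp : p.Prime := Fact.out
  have := isElliptic_of_residual h
  set T := extraPrimes W p M
  have hM0 : M ≠ 0 := fun h0 => hMr.ne_zero (by rw [h0, zero_mul])
  have hrk : (r : ResidueField C.O) = -1 := by
    subst hp
    rw [show r = 3 * (r / 3) + 2 by omega, Nat.cast_add, Nat.cast_mul,
      CharP.cast_eq_zero (ResidueField C.O) 3, zero_mul, zero_add]
    have h3 : ((3 : ℕ) : ResidueField C.O) = 0 := CharP.cast_eq_zero _ 3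
    push_cast at h3 ⊢
    linear_combination h3
  have hTspec : ∀ w ∈ T, w.Prime ∧ w ≠ p ∧ w ∉ Smin W p := fun w hw => extraPrimes_spec hw
  have hU : ∀ x ∈ ({r} : Finset ℕ), x ≠ p ∧ (x : ResidueField C.O) = -1 ∧
      (∀ A : ValuationSubring Qbar, A.LiesOverPrime x →
        ∀ σ ∈ A.inertiaSubgroupIn ℚ, R.D.rbar σ = 1) ∧
      ∀ A : ValuationSubring Qbar, A.LiesOverPrime x → ∀ φ : GQ, A.IsFrobeniusAt φ x →
        (R.D.rbar φ).trace ≠ 0 := fun x hx => by
    rw [Finset.mem_singleton] at hx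
    subst hx
    exact ⟨hrp, hrk, fun A hA => R.unramified_iff.1 hru A hA, htr0⟩
  have hV : extraPrimes W p (M * r) ⊆ T ∪ {r} := fun w hw => by
    obtain ⟨h1, h2, -, h4, h5⟩ := mem_extraPrimes.1 hw
    rcases (Nat.Prime.dvd_mul h1).1 h2 with h2 | h2
    · exact Finset.mem_union_left _ (mem_extraPrimes.2 ⟨h1, h2, hM0, h4, h5⟩)
    · exact Finset.mem_union_right _
        (Finset.mem_singleton.2 ((Nat.prime_dvd_prime_iff_eq h1 hr).1 h2))
  have h3 : ThreeOK p (M * r) := Or.inr ⟨r, hr, dvd_mul_left r M, hr3⟩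
  have hTN : ∀ w ∈ T, w ∣ M * r := fun w hw => (mem_extraPrimes.1 hw).2.1.mul_right r
  have hq1 : p ∣ q - 1 := hone q hqT
  have hinv : GalCoh.Reciprocity p := (CFT.cftInputs p).reciprocity
  have hGW : GalCoh.GreenbergWilesLe p := GalCoh.greenbergWilesLe p
  by_cases hcase : ¬ W.IsGoodPrimeFor p ∨ ¬ (p : ℤ) ∣ W.apOfModel p
  · -- the ordinary condition
    obtain ⟨Pc⟩ := General.Top.exists_placeChoice_odd C h.ne_two
    have hdef := defect_rbar_three hp R Pc h hcase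
    obtain ⟨Ch, Φ₀, hCh, hΦ₀, hF₀⟩ := R.exists_localChoices h T hTspec Pc.P
      (ordinaryClosed Pc.P C.cyclo)
    have hF : FramedPrimes p (R.ordLevel Pc (T ∪ {r})) (fun v : T => (v : ℕ)) Ch.frob Ch.tame :=
      { prime := hF₀.prime, ne_p := hF₀.ne_p, place := hF₀.place, residual := hF₀.residual
        det_frob := hF₀.det_frob, det_tame := hF₀.det_tame }
    have H := loweringSetting_odd R h hMr hV h3 a htr Finset.subset_union_left hTN
      (fun w hw => (hTspec w hw).2.2) hq1 hqT Pc.P (ordinaryClosed Pc.P C.cyclo) hF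
    have hbase := nontrivial_baseClasses_odd R h hMr hV a hf h𝔪 hp𝔪 hcong Pc.P
      (ordinaryClosed Pc.P C.cyclo)
    have hplace := topPlaceHyp_ordinary H.toBaseSetting
      (Nat.squarefree_iff_prime_squarefree.1 hMr p hpp) Pc.over_p rfl
      (R.isOrdinaryOn_rbar Pc h hcase)
    obtain ⟨PB⟩ := LevelData.nonempty_repRing (R.isResidual_ordLevel Pc h hcase (T ∪ {r}))
    obtain ⟨d, Q, X, hX, hnil⟩ : ∃ (d : ℕ) (Q : ℕ → Fin d → ℕ)
        (X : AuxLevels d (⟨q, hqT⟩ : T) Ch.frob Ch.tame Φ₀ (R.ordLevel Pc (T ∪ {r})) PB),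
        AuxPrimes p X Q ∧
        ∀ i, ∃ k : ℕ, ∀ n, (MvPowerSeries.C (X.extra n i) : (X.P n).Framed ⟨q, hqT⟩) ^ k ∈
          Ideal.span (Set.image (X.θ n)
            {x : LocRing C.O T X.g | MvPowerSeries.constantCoeff x ∈ maximalIdeal C.O}) := by
      by_cases hs : R.D.rbar Pc.s = 1
      · obtain ⟨i, j, d, -, Q, X, -, hX, hext, l, hl⟩ := R.exists_aux_unram_odd Pc hinv hGW h T
          hTspec Ch hCh ⟨q, hqT⟩ Φ₀ hΦ₀ {r} hU PB hcase hdef hs
        refine ⟨d, Q, X, hX, fun e => ⟨2, fun n => ?_⟩⟩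
        have hlift := (X.P n).isLift
        have h0 := Pc.defect_smul_sub_one (X.P n).instIsLocalHom (X.P n).residue_surjective
          hlift.cont (fun σ _ => hlift.eqs.det σ)
          ((mem'_ordinaryClosed (X.P n).instIsLocalHom (X.P n).residue_surjective).1 hlift.atPlace)
        have h1 : Pc.defect (X.P n).rep * (((X.P n).rep Pc.s - 1) i j) = 0 :=
          congrFun (congrFun h0 i) j
        rw [hext n e, ← map_pow, show ((((X.P n).rep Pc.s - 1) i j)) ^ 2 =
          (((X.P n).rep Pc.s - 1) i j) *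
            (Pc.defect (X.P n).rep + (((X.P n).rep Pc.s - 1) i j)) by linear_combination -h1,
          map_mul, ← hl n]
        refine Ideal.mul_mem_left _ _ (Ideal.subset_span ⟨_, ?_, rfl⟩)
        simp
      · obtain ⟨d, -, Q, X, hX0, hX⟩ := R.exists_aux_ram_odd Pc hinv hGW h T hTspec
          Ch hCh ⟨q, hqT⟩ Φ₀ hΦ₀ {r} hU PB hcase hdef hs
        exact ⟨d, Q, X, hX, fun i => (finCongr hX0 i).elim0⟩
    obtain ⟨B, b, hb⟩ := Engine.Top.loweringBuildHyp p C.O C.ι₀ (M * r) _ T _ _ Ch.frob Ch.tame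
      ⟨q, hqT⟩ C.ζ C.ζ' H hplace d ⟨q, hqT⟩ Φ₀ PB X Q hX hbase (Or.inl hnil)
    exact lowering_of_levels_three hp R h hMr hqT hone a ha H B b hb
  · -- the flat condition
    simp only [not_or, not_not] at hcase
    obtain ⟨hgood, hap⟩ := hcase
    have hpM : ¬ p ∣ M * r := fun hd => (hpp.dvd_mul.1 hd).elim (hgp hgood) fun hd =>
      hrp ((Nat.prime_dvd_prime_iff_eq hpp hr).1 hd).symm
    have hss : EllLocal.IsGoodSupersingular W p :=
      ⟨hgood, fun ho => not_dvd_of_isGoodOrdinary ho hap⟩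
    obtain ⟨A, hA⟩ := Frobenius.exists_liesOverPrime Qbar hpp
    obtain ⟨-, atP, hplaceA, hatP⟩ := General.exists_flat_condAtP_supersingular p h.ne_two R.D.rbar
      A hA W hgood hss R.isTorsionMatrix
    subst hplaceA
    let cl : Closed C.O (atP.place.decompositionSubgroup ℚ × Fin 2 × Fin 2) := freeClosed _
    let L₀ := R.levelData (T ∪ {r}) atP.place cl
    have h₀ : L₀.IsResidual := R.isResidual_levelData h _ atP.place cl (mem_freeClosed _)
    obtain ⟨Ch, Φ₀, hCh, hΦ₀, hF₀⟩ := R.exists_localChoices h T hTspec atP.place cl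
    have hF : FramedPrimes p L₀ (fun v : T => (v : ℕ)) Ch.frob Ch.tame :=
      { prime := hF₀.prime, ne_p := hF₀.ne_p, place := hF₀.place, residual := hF₀.residual
        det_frob := hF₀.det_frob, det_tame := hF₀.det_tame }
    have H := loweringSetting_odd R h hMr hV h3 a htr Finset.subset_union_left hTN
      (fun w hw => (hTspec w hw).2.2) hq1 hqT atP.place cl hF
    have hbase := nontrivial_baseClasses_odd R h hMr hV a hf h𝔪 hp𝔪 hcong atP.place cl
    have hplace : TopPlaceHyp p C.ι₀ (M * r) (fun ℓ => (a ℓ : C.O)) L₀ := by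
      intro N _ hes _ _ S _ Λ _ _ _ _ _ _ _ _ _ hsΛ Rρ _ B _ _ _ _ _ _ _ _ _ F g
      exact mem'_freeClosed _
    -- the kernels
    obtain ⟨K, ρE, hK, hKε⟩ := General.Top.exists_cycloKernel_odd h.ne_two hA
    have hes : EichlerShimuraRelations (M * r) p := SemistableRed.allRelations _ p
    have hK₀ := isBoundKernel_torsionKer_inf (stdInputs hes) hA (FlatJ0.jZeroBound hpM) hK
    have htriv : ∀ s ∈ torsionKer atP.place p (JZero (M * r)) ⊓ K, R.D.rbar s = 1 := fun s hs =>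
      rbar_eq_one_of_fixed H.toBaseSetting h₀ hplace hbase hs.1.2 (hKε s hs.2)
    have hK₁ : IsBoundKernel atP.place p (torsionKer atP.place p (JZero (M * r)) ⊓ K) R.D.rbar :=
      { le := hK₀.le
        normal := hK₀.normal
        isOpen := hK₀.isOpen
        bound := hK₀.bound
        trivial := htriv
        continuous := by
          obtain ⟨L, hL, hσ⟩ := R.finiteLevel h
          exact ⟨L, hL, fun σ hs => hσ σ fun x hx =>
            (IntermediateField.mem_fixingSubgroup_iff L σ).1 hs x hx⟩ }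
    let N : Finset ℕ → Subgroup GQ := fun Qs =>
      torsionKer atP.place p (JZero (M * r * (∏ x ∈ Qs, x) * (∏ x ∈ Qs, x))) ⊓
        (torsionKer atP.place p (JZero (M * r * (∏ x ∈ Qs, x) * ((∏ x ∈ Qs, x) * q))) ⊓
          (torsionKer atP.place p (JZero (M * r)) ⊓ K))
    have hN : ∀ Qs : Finset ℕ, (∀ x ∈ Qs, x.Prime ∧ x ≠ p) →
        IsBoundKernel atP.place p (N Qs) L₀.D.rbar := by
      intro Qs hQs
      obtain ⟨hqp, -, -, hqne, -⟩ := mem_extraPrimes.1 hqT
      have hP : ¬ p ∣ ∏ x ∈ Qs, x := fun hd => by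
        obtain ⟨x, hx, hd⟩ := (Prime.dvd_finsetProd_iff hpp.prime _).mp hd
        exact (hQs x hx).2 ((Nat.prime_dvd_prime_iff_eq hpp (hQs x hx).1).mp hd).symm
      have hP0 : (∏ x ∈ Qs, x) ≠ 0 := Finset.prod_ne_zero_iff.2 fun x hx => (hQs x hx).1.ne_zero
      have : NeZero (M * r * (∏ x ∈ Qs, x) * (∏ x ∈ Qs, x)) :=
        ⟨mul_ne_zero (mul_ne_zero (NeZero.ne _) hP0) hP0⟩
      have : NeZero (M * r * (∏ x ∈ Qs, x) * ((∏ x ∈ Qs, x) * q)) :=
        ⟨mul_ne_zero (mul_ne_zero (NeZero.ne _) hP0) (mul_ne_zero hP0 hqp.ne_zero)⟩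
      refine isBoundKernel_torsionKer_inf (stdInputs (SemistableRed.allRelations _ p)) hA
        (FlatJ0.jZeroBound ?_) (isBoundKernel_torsionKer_inf
          (stdInputs (SemistableRed.allRelations _ p)) hA (FlatJ0.jZeroBound ?_) hK₁)
      · exact fun hd => (hpp.dvd_mul.1 hd).elim (fun hd => (hpp.dvd_mul.1 hd).elim hpM hP) hP
      · exact fun hd => (hpp.dvd_mul.1 hd).elim (fun hd => (hpp.dvd_mul.1 hd).elim hpM hP)
          fun hd => (hpp.dvd_mul.1 hd).elim hP
            fun hd => hqne ((Nat.prime_dvd_prime_iff_eq hpp hqp).1 hd).symm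
    obtain ⟨PB⟩ := LevelData.nonempty_repRing h₀
    obtain ⟨d, -, Q, X, hX, hnil⟩ := exists_flat_auxLevels_oddU p h.ne_two hinv hGW L₀ PB h₀
      (R.indexTwo h) _ C.residue_cyclo (R.det_rbar h _ C.residue_cyclo) atP hatP N hN T
      ⟨fun hp' => (mem_Smin.1 hp').2.2.2.1 rfl, fun hp' => (hTspec p hp').2.1 rfl⟩
      (disjoint_Smin_extraPrimes W p M)
      (fun x hx => (Finset.mem_union.1 hx).elim (fun hx => (mem_Smin.1 hx).1)
        fun hx => (hTspec x hx).1) {r} hU rfl (fun x hx => R.exists_ramified hx)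
      (fun x hx hxS hxp B hB σ hσ => R.rbar_inertia_of_not_mem h hx hxS hxp hB hσ) Ch hCh ⟨q, hqT⟩
      Φ₀ hΦ₀
    obtain ⟨B, b, hb⟩ := Engine.Top.loweringBuildHyp p C.O C.ι₀ (M * r) _ T _ L₀ Ch.frob Ch.tame
      ⟨q, hqT⟩ C.ζ C.ζ' H hplace d ⟨q, hqT⟩ Φ₀ PB X Q hX hbase
      (Or.inr ⟨atP.place, _, hnil, fun n s hs => ⟨htriv s hs.2.2,
        fun M' _ hM' => by
          rcases hM' with rfl | rfl
          exacts [hs.1, hs.2.1]⟩⟩)
    exact lowering_of_levels_three hp R h hMr hqT hone a ha H B b hb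

end Fermat.Agent.General.Lower

end
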