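import Fermat.Agent.Engine.Top.LowerSetting

/-!
# The settings for lowering at an odd prime, with auxiliary primes in the level

The level is `N`, ramification is allowed at a set `V` containing its superfluous primes, lowering
is framed at a part of `V`.
-/

noncomputable section

open IsLocalRing Fermat.Agent.DefRing Fermat.Agent.Deform

namespace Fermat.Agent.General.Lower

open Engine Engine.Top HeckeModule TRep

local notation "Qbar" => AlgebraicClosure ℚ

variable {W : WeierstrassCurve ℤ} {p : ℕ} [Fact p.Prime] {C : Coeff p} (R : ResidualData W C)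
  (h : OddResidual W p) {N : ℕ} (hN : Squarefree N) {V : Finset ℕ}
  (hV : extraPrimes W p N ⊆ V)

include R h hN hV

/-- The prime divisors of the level are in the ramification set. -/
theorem mem_sigma (P : ValuationSubring Qbar)
    (cl : Closed C.O (P.decompositionSubgroup ℚ × Fin 2 × Fin 2)) {ℓ : ℕ} (hℓ : ℓ.Prime)
    (hd : ℓ ∣ N * p) : ℓ ∈ (R.levelData V P cl).Sigma := by
  have h1 := R.mem_sigma_of_dvd h hN hℓ hd
  show ℓ ∈ Smin W p ∪ V ∪ {p}
  simp only [Finset.mem_union] at h1 ⊢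
  rcases h1 with (h1 | h1) | h1
  exacts [Or.inl (Or.inl h1), Or.inl (Or.inr (hV h1)), Or.inr h1]

variable (h3 : ThreeOK p N) (a : ℕ → ℤ)
  (htr : ∀ ℓ : ℕ, ℓ.Prime → ¬ ℓ ∣ N → ℓ ≠ p → ∀ A : ValuationSubring Qbar, A.LiesOverPrime ℓ →
    ∀ σ : GQ, A.IsFrobeniusAt σ ℓ →
      WeierstrassCurve.Affine.Point.galoisTrace ℚ (W.map (Int.castRingHom ℚ)) p σ =
        (a ℓ : ZMod p))

include h3 htr

/-- **The base setting.** -/
theorem baseSetting_odd (P : ValuationSubring Qbar)
    (cl : Closed C.O (P.decompositionSubgroup ℚ × Fin 2 × Fin 2)) :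
    BaseSetting p C.ι₀ N (fun ℓ => (a ℓ : C.O)) (R.levelData V P cl) where
  three_le := by
    have h2 := h.ne_two
    have := (Fact.out : p.Prime).two_le
    omega
  three := h3
  p_mem := C.p_mem
  sigma _ hℓ hd := mem_sigma R h hN hV P cl hℓ hd
  smin q hq := by
    obtain ⟨hqp, -, -, hqne, -⟩ := mem_Smin.1 hq
    exact ⟨hqp, hqne, fun hd => Nat.squarefree_iff_prime_squarefree.1 hN q hqp hd,
      Finset.mem_union_left _ (Finset.mem_union_left _ hq)⟩
  det _ := rfl
  detbar σ := R.det_rbar h _ C.residue_cyclo σ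
  cont := R.isCont_rbar h
  span := R.span_rbar h
  split := R.exists_eigenvalues
  trace_frob ℓ hℓ hℓS A hA σ hσ := by
    have hd : ¬ ℓ ∣ N := fun hd => hℓS (mem_sigma R h hN hV P cl hℓ (hd.mul_right p))
    have hp : ℓ ≠ p := fun he => hℓS (he ▸ Finset.mem_union_right _ (Finset.mem_singleton_self _))
    show (R.D.rbar σ).trace = _
    rw [R.trace_rbar, htr ℓ hℓ hd hp A hA σ hσ, map_intCast, map_intCast]

/-- **The setting for lowering**, framed at `T ⊆ V`. -/
theorem loweringSetting_odd {T : Finset ℕ} (hTV : T ⊆ V) (hTN : ∀ w ∈ T, w ∣ N)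
    (hTS : ∀ w ∈ T, w ∉ Smin W p) {q : ℕ} (hq1 : p ∣ q - 1) (hqT : q ∈ T)
    (P : ValuationSubring Qbar) (cl : Closed C.O (P.decompositionSubgroup ℚ × Fin 2 × Fin 2))
    {frob tame : T → GQ}
    (hF : FramedPrimes p (R.levelData V P cl) (fun v : T => (v : ℕ)) frob tame) :
    LoweringSetting p C.ι₀ N (fun ℓ => (a ℓ : C.O)) (fun v : T => (v : ℕ))
      (R.levelData V P cl) frob tame ⟨q, hqT⟩ C.ζ C.ζ' where
  toBaseSetting := baseSetting_odd R h hN hV h3 a htr P cl
  qv_inj := Subtype.val_injective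
  framed := hF
  dvd := hTN q hqT
  not_sq w := fun hd => Nat.squarefree_iff_prime_squarefree.1 hN _ (hF.prime w) hd
  one_mod := hq1
  zeta_mul := C.ζ_mul
  zeta_pow := C.ζ_primitive.pow_eq_one
  zeta_mem := C.ζ_sub_one_mem
  sigma_qv w := Finset.mem_union_left _ (Finset.mem_union_right _ (hTV w.2))
  smin_v hq := hTS q hqT hq

omit h3 htr

/-- The localised classes at level `N` are non-zero. -/
theorem nontrivial_baseClasses_odd [NeZero N] (a : ℕ → ℤ)
    {f : CuspForm (CongruenceSubgroup.Gamma0 N) 2} (hf : f.IsNormalizedEigenform)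
    {𝔪 : Ideal (integralClosure ℤ ℂ)} (h𝔪 : 𝔪.IsMaximal) (hp : (p : integralClosure ℤ ℂ) ∈ 𝔪)
    (hcong : ∀ ℓ : ℕ, ℓ.Prime → ¬ ℓ ∣ N → ℓ ≠ p → ∃ c : integralClosure ℤ ℂ,
      (c : ℂ) = ModularFormClass.qCoeff f ℓ ∧ c - (a ℓ : integralClosure ℤ ℂ) ∈ 𝔪)
    (P : ValuationSubring Qbar) (cl : Closed C.O (P.decompositionSubgroup ℚ × Fin 2 × Fin 2)) :
    Nontrivial (BaseClasses (O := C.O) (residue_surjective (R := C.O))
      (R.levelData V P cl).Sigma (fun ℓ => (a ℓ : C.O)) N) := by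
  set S := (R.levelData V P cl).Sigma
  have hS : ∀ ℓ : ℕ, ℓ.Prime → ℓ ∉ S → ¬ ℓ ∣ N := fun ℓ hℓ hℓS hd =>
    hℓS (mem_sigma R h hN hV P cl hℓ (hd.mul_right p))
  have key := nontrivial_levelCoh (p := p) (residue_surjective (R := C.O)) S
    (fun ℓ => (a ℓ : C.O)) a (fun _ => rfl) (fun _ => 1) (fun _ : Unit => N) () hS hf h𝔪.isPrime hp
    fun ℓ hℓ hℓS => hcong ℓ hℓ (hS ℓ hℓ hℓS) fun he =>
      hℓS (he ▸ Finset.mem_union_right _ (Finset.mem_singleton_self _))
  have he : charSq (R := C.O) (fun _ => 1) ∅ N = 1 := by simp [charSq]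
  unfold BaseClasses
  rw [← he]
  exact key

end Fermat.Agent.General.Lower

end
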