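import Fermat.Agent.General.Lower.Point
import Fermat.Agent.General.Lower.Setting
import Fermat.Agent.Engine.Lifting.BaseLevels
import Fermat.Agent.Engine.Top.FlatKer
import Fermat.Agent.Engine.Top.Convert
import Fermat.Agent.RowS36.Levels

/-!
# An auxiliary prime `r ≡ -1 (mod p)` with non-zero trace of Frobenius leaves the level

A system congruent to the residual one has `a_r ^ 2 ≢ (r + 1) ^ 2` at such a prime, so it is old at
`r`.
-/

noncomputable section

open IsLocalRing Fermat.Agent.DefRing Fermat.Agent.Deform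

namespace Fermat.Agent.General.Lower

open Engine Engine.Top Engine.Lifting HeckeModule TRep

local notation "Qbar" => AlgebraicClosure ℚ

variable {W : WeierstrassCurve ℤ} {p : ℕ} [Fact p.Prime] {C : Coeff p}

/-- A system which is not Eisenstein residually makes the lift non-Eisenstein. -/
theorem exists_ne_add_one {O : Type} [CommRing O] [IsDomain O] [IsDiscreteValuationRing O]
    {O' : Type} [CommRing O'] [IsDomain O'] [IsDiscreteValuationRing O'] [Algebra O O']
    [IsLocalHom (algebraMap O O')] {S : Finset ℕ} {lam : ℕ → O} {a : ℕ → O'}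
    (hcong : ∀ ℓ : ℕ, ℓ.Prime → ℓ ∉ S → a ℓ - algebraMap O O' (lam ℓ) ∈ maximalIdeal O')
    {L : ℕ} (hne : ∃ l : ℕ, l.Prime ∧ (l : ZMod L) = 1 ∧ l ∉ S ∧
      residue O (lam l) ≠ (l : ResidueField O) + 1) :
    EigenSystems.NonEisensteinSystem L S fun ℓ => algebraMap O' (FractionRing O') (a ℓ) := by
  obtain ⟨l, hl1, hl2, hlS, hne'⟩ := hne
  refine ⟨l, hl1, hlS, hl2, fun he => hne' ?_⟩
  have he' : a l = (l : O') + 1 := IsFractionRing.injective O' (FractionRing O') (by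
    simpa using he)
  have h1 := hcong l hl1 hlS
  rw [he', ← map_natCast (algebraMap O O'), ← map_one (algebraMap O O'), ← map_add,
    ← map_sub] at h1
  have h2 : residue O ((l : O) + 1 - lam l) = 0 :=
    (residue_eq_zero_iff _).2 fun hu => h1 (hu.map _)
  rw [map_sub, sub_eq_zero, map_add, map_natCast, map_one] at h2
  exact h2.symm

/-- **The auxiliary prime leaves the level.** -/
theorem residuallyModular_drop (R : ResidualData W C) (h : OddResidual W p) {M r : ℕ} [NeZero M]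
    (hMr : Squarefree (M * r)) (hr : r.Prime) (hrp : r ≠ p) (h3 : ThreeOK p (M * r))
    (hrm : (r : ResidueField C.O) = -1)
    (htr0 : ∀ A : ValuationSubring Qbar, A.LiesOverPrime r → ∀ φ : GQ, A.IsFrobeniusAt φ r →
      (R.D.rbar φ).trace ≠ 0)
    (hmod : W.IsResiduallyModularOfLevel p (M * r)) : W.IsResiduallyModularOfLevel p M := by
  classical
  have : NeZero (M * r) := ⟨hMr.ne_zero⟩
  have hrM : ¬ r ∣ M := fun hd => Nat.squarefree_iff_prime_squarefree.1 hMr r hr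
    (mul_dvd_mul_right hd r)
  obtain ⟨a, f, 𝔪, hf, h𝔪, hp𝔪, ha, hspec⟩ := exists_system h hmod
  obtain ⟨P, -⟩ := Frobenius.exists_liesOverPrime Qbar (Fact.out : p.Prime)
  set cl : Closed C.O (P.decompositionSubgroup ℚ × Fin 2 × Fin 2) := freeClosed _
  set V := extraPrimes W p (M * r)
  set L₀ := R.levelData V P cl
  have h₀ : L₀.IsResidual := R.isResidual_levelData h V P cl (mem_freeClosed _)
  have H := baseSetting_odd R h hMr (Finset.Subset.refl V) h3 a
    (fun ℓ hℓ hℓN hℓp => (hspec ℓ hℓ hℓN hℓp).2) P cl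
  have hbase := nontrivial_baseClasses_odd R h hMr (Finset.Subset.refl V) a hf h𝔪 hp𝔪
    (fun ℓ hℓ hℓN hℓp => (hspec ℓ hℓ hℓN hℓp).1) P cl
  have hplace : TopPlaceHyp p C.ι₀ (M * r) (fun ℓ => (a ℓ : C.O)) L₀ := by
    intro N _ hes _ _ S _ Λ _ _ _ _ _ _ _ _ _ hsΛ Rρ _ B _ _ _ _ _ _ _ _ _ F g
    exact mem'_freeClosed _
  obtain ⟨PB⟩ := LevelData.nonempty_repRing h₀
  have hok : LevelOK p (M * r) L₀ (M * r) :=
    { ne_zero := NeZero.ne _
      dvd := dvd_rfl
      p_not_dvd := by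
        rw [Nat.div_self (Nat.pos_of_ne_zero (NeZero.ne (M * r)))]
        exact (Fact.out : p.Prime).not_dvd_one
      mem := H.sigma
      smin := fun q hq => (H.smin q hq).2.2.1 }
  obtain ⟨d, hd, b, act, hact, hb⟩ := H.exists_baseAct hplace hok PB hbase
  have hconst : ∀ o : C.O, act (algebraMap C.O PB.R o) = o • 1 := fun o => by
    obtain ⟨φ, G, -, -, -, hx⟩ := hact.family
    rw [hx]
    erw [φ.commutes, G.commutes, Algebra.algebraMap_eq_smul_one]
  -- the point
  have hfin := finite_quotient_of_matrix act hconst (le_refl (RingHom.ker act))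
  have htf : ∀ (o : C.O) (x : PB.R ⧸ RingHom.ker act), o ≠ 0 →
      algebraMap C.O (PB.R ⧸ RingHom.ker act) o * x = 0 → x = 0 := fun o x ho hx => by
    obtain ⟨x, rfl⟩ := Ideal.Quotient.mk_surjective x
    rw [← Ideal.Quotient.mk_algebraMap, ← map_mul, Ideal.Quotient.eq_zero_iff_mem,
      RingHom.mem_ker, map_mul, hconst, Matrix.smul_mul, one_mul] at hx
    exact Ideal.Quotient.eq_zero_iff_mem.2 (RingHom.mem_ker.2 ((smul_eq_zero.1 hx).resolve_left ho))
  have h1 : ¬ IsNilpotent (1 : PB.R ⧸ RingHom.ker act) := fun ⟨n, hn⟩ => by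
    rw [one_pow, ← map_one (Ideal.Quotient.mk (RingHom.ker act)), Ideal.Quotient.eq_zero_iff_mem,
      RingHom.mem_ker, map_one] at hn
    exact one_ne_zero (congrFun (congrFun hn ⟨0, Nat.pos_of_ne_zero hd⟩) ⟨0, Nat.pos_of_ne_zero hd⟩)
  obtain ⟨O', _, _, _, _, _, _, _, _, hl, θ₁, -⟩ :=
    TRep.exists_point C.O (PB.R ⧸ RingHom.ker act) htf h1
  let θ : PB.R →ₐ[C.O] O' := θ₁.comp (Ideal.Quotient.mkₐ C.O _)
  have hθ : IsLocalHom (θ : PB.R →+* O') := TRep.isLocalHom_point θ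
  have hkθ : RingHom.ker act ≤ RingHom.ker θ := fun x hx => by
    show θ₁ (Ideal.Quotient.mk _ x) = 0
    rw [Ideal.Quotient.eq_zero_iff_mem.2 hx, map_zero]
  -- Frobenius elements
  have hex : ∀ ℓ : ℕ, ∃ A : ValuationSubring Qbar, ∃ σ : GQ,
      ℓ.Prime → A.LiesOverPrime ℓ ∧ A.IsFrobeniusAt σ ℓ := fun ℓ => by
    by_cases hℓ : ℓ.Prime
    · obtain ⟨A, hA⟩ := Frobenius.exists_liesOverPrime Qbar hℓ
      obtain ⟨σ, hσ⟩ := Frobenius.exists_isFrobeniusAt_qbar hℓ hA
      exact ⟨A, σ, fun _ => ⟨hA, hσ⟩⟩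
    · exact ⟨⊤, 1, fun h => absurd h hℓ⟩
  choose A Fr hFr using hex
  have hatt := isAttached_pointRep θ hθ hl C.p_mem C.isPadicCyclotomic Fr L₀.Sigma
    fun ℓ hℓ hℓS B hB σ hσ => trace_frob_eq θ act hkθ b hb hℓ hℓS hB (hFr ℓ hℓ).1 hσ (hFr ℓ hℓ).2
  have hocc := occurs_of_point θ act hconst hkθ b hb
    (H.exactHyp_base (M * r) h3) A Fr hFr
  have hcong : ∀ ℓ : ℕ, ℓ.Prime → ℓ ∉ L₀.Sigma →
      traceSystem θ Fr ℓ - algebraMap C.O O' (a ℓ : C.O) ∈ maximalIdeal O' := fun ℓ hℓ hℓS =>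
    point_trace_sub_mem PB θ hθ (H.trace_frob ℓ hℓ hℓS _ (hFr ℓ hℓ).1 _ (hFr ℓ hℓ).2)
  have hneis : ∀ L : ℕ, 0 < L → ∃ l : ℕ, l.Prime ∧ (l : ZMod L) = 1 ∧ l ∉ L₀.Sigma ∧
      residue C.O (a l : C.O) ≠ (l : ResidueField C.O) + 1 := fun L hL => by
    obtain ⟨l, h1, h2, -, h4, h5⟩ := H.exists_nonEisenstein _ (Finset.Subset.refl _) hL
    exact ⟨l, h1, h2, h4, h5⟩
  -- old at `r`
  obtain ⟨hAr, hσr⟩ := hFr r hr
  have hsq : (pointRep θ hθ).trace (Fr r) ^ 2 ≠ ((r : O') + 1) ^ 2 := by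
    obtain ⟨o, ho⟩ := residue_surjective (R := C.O) ((R.D.rbar (Fr r)).trace)
    intro he
    have h2 := trace_pointRep_sub_mem θ hθ (σ := Fr r) (o := o) ho.symm
    rw [← residue_eq_zero_iff, map_sub, sub_eq_zero] at h2
    have h4 := congrArg (residue O') he
    rw [map_pow, map_pow, h2, map_add, map_natCast, map_one,
      show algebraMap C.O O' o = (algebraMap C.O O') o from rfl,
      ← ResidueField.map_residue (algebraMap C.O O'), ho,
      ← map_natCast (ResidueField.map (algebraMap C.O O')), hrm, map_neg, map_one, neg_add_cancel,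
      zero_pow two_ne_zero] at h4
    exact htr0 _ hAr _ hσr ((map_eq_zero _).1 (pow_eq_zero_iff two_ne_zero |>.1 h4))
  have hrS : r ∈ L₀.Sigma := H.sigma r hr (((dvd_mul_left r M)).mul_right p)
  have hlow := RowS36.occurs_down hr hrp hrM hrS (H.sigma p Fact.out (dvd_mul_left p _))
    (fun q hq hqM => H.sigma q hq ((hqM.mul_right r).mul_right p)) hatt
    (exists_ne_add_one hcong (hneis _ (Nat.pos_of_ne_zero (NeZero.ne (M * r))))) hocc hAr hσr hsq
  have hp' : (p : O') ∈ maximalIdeal O' := by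
    rw [← map_natCast (algebraMap C.O O')]
    exact map_nonunit (algebraMap C.O O') _ C.p_mem
  refine isResiduallyModularOfLevel_of_occurs h.delta_ne_zero hp'
    (IsFractionRing.injective O' (FractionRing O')) hlow
    (exists_ne_add_one hcong (hneis _ (Nat.pos_of_ne_zero (NeZero.ne M))))
    (L₀.Sigma ∪ W.Δ.natAbs.primeFactors) fun ℓ hℓ hℓT => ?_
  simp only [Finset.mem_union, Nat.mem_primeFactors, hℓ, true_and, ne_eq, Int.natAbs_eq_zero,
    h.delta_ne_zero, not_false_eq_true, and_true, not_or] at hℓT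
  have h1 := hcong ℓ hℓ hℓT.1
  rwa [ha ℓ hℓ (fun hd' => hℓT.2 (Int.natCast_dvd.1 hd')), map_intCast] at h1

end Fermat.Agent.General.Lower

end
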