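import Fermat.Agent.General.Cases
import Fermat.Agent.General.Top.AuxPrime
import Fermat.Agent.General.Top.OddResidual
import Fermat.Agent.Row38.IndexTwo
import Fermat.Agent.MazurPrinciple.Principle
import Fermat.Agent.Engine.Top.LoweringFinal

/-!
# Lowering at `5`, the descent to the ramified primes and the auxiliary primes

`lowering_five` puts Mazur's principle and the lowering at primes `≡ 1 (mod p)` together.  A
lowering theorem gives a base level by induction: a superfluous prime outside the auxiliary set is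
removed and the auxiliary primes are put back.
-/

noncomputable section

open IsLocalRing Fermat.Agent.DefRing
open scoped WeierstrassCurve.Affine

namespace Fermat.Agent.General

open Engine Engine.Top

local notation "Qbar" => AlgebraicClosure ℚ

/-- Lowering at `5`. -/
theorem lowering_five : Lowering 5 := by
  intro W M q hΔ hW hirr hq hq5 hqM hunr ⟨hM0, hM, hp, hmod⟩
  have : Fact (Nat.Prime 5) := ⟨by norm_num⟩
  have hres := Row38.residual_of_semistable hΔ hW le_rfl hirr
  have hord : OrdinaryIfInLevel W 5 M := fun h5 =>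
    Or.inl fun hgood => hp hgood h5
  obtain ⟨M', hd, hqM', hmod'⟩ := exists_level_without MazurPrinciple.mazurPrinciple
    loweringAtOneModP 5 W hres q hq hq5 hunr M hqM hM hord hmod
  exact ⟨M', hd, hqM', Nat.pos_of_dvd_of_pos hd hM0, hM.squarefree_of_dvd hd,
    fun hgood h5 => hp hgood (h5.trans hd), hmod'⟩

/-- Good primes other than `p` are unramified in `W[p]`. -/
theorem unramified_of_good {W : WeierstrassCurve ℤ} {p q : ℕ} [Fact p.Prime] (hq : q.Prime)
    (hqp : q ≠ p) (hgood : W.IsGoodPrimeFor q) : Unramified W p q := by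
  intro A hA σ hσ x
  refine Subtype.ext (MultRed.inertia_smul_eq_of_good hq hA hgood hσ
    (fun h => hqp ((Nat.prime_dvd_prime_iff_eq hq Fact.out).1 h)) ?_)
  rw [← natCast_zsmul]
  exact (Submodule.mem_torsionBy_iff _ _).1 x.2

/-- A lowering theorem gives base levels. -/
theorem ramifiedLevel_of {p : ℕ} [Fact p.Prime] (hlow : Lowering p) : RamifiedLevel p := by
  classical
  intro W U M hΔ hW hirr hU
  induction M using Nat.strong_induction_on with
  | _ M ih =>
    intro hM hUM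
    by_cases hall : ∀ q : ℕ, q.Prime → q ∣ M → q ∈ Smin W p ∪ U ∪ {p}
    · exact ⟨M, dvd_rfl, ⟨hU, hM, hUM, hall⟩⟩
    push Not at hall
    obtain ⟨q, hq, hqM, hqS⟩ := hall
    simp only [Finset.mem_union, Finset.mem_singleton, not_or] at hqS
    obtain ⟨⟨hqS, hqU⟩, hqp⟩ := hqS
    have hu : Unramified W p q := by
      by_contra hu
      exact hqS (mem_Smin.2 ⟨hq, not_not.1 fun hgood => hu (unramified_of_good hq hqp hgood),
        hΔ, hqp, hu⟩)
    obtain ⟨M', hd, hqM', -, -, -, hmod'⟩ := hlow W M q hΔ hW hirr hq hqp hqM hu hM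
    set P := ∏ R ∈ U, R with hP
    have hPM : P ∣ M := Finset.prod_primes_dvd M (fun R hR => (hU.prime R hR).prime) hUM
    set M₁ := Nat.lcm M' P with hM₁
    have hd₁ : M₁ ∣ M := Nat.lcm_dvd hd hPM
    have hqM₁ : ¬ q ∣ M₁ := fun h => by
      rcases hq.dvd_mul.1 (h.trans (Nat.lcm_dvd_mul M' P)) with h' | h'
      · exact hqM' h'
      · obtain ⟨R, hR, hqR⟩ := (hq.prime.dvd_finsetProd_iff _).1 h'
        exact hqU ((Nat.prime_dvd_prime_iff_eq hq (hU.prime R hR)).1 hqR ▸ hR)
    have hlt : M₁ < M := lt_of_le_of_ne (Nat.le_of_dvd hM.1 hd₁) fun he => hqM₁ (he ▸ hqM)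
    have hpos : 0 < M₁ := Nat.pos_of_dvd_of_pos hd₁ hM.1
    have : NeZero M₁ := ⟨hpos.ne'⟩
    obtain ⟨M₀, hd₀, hbase⟩ := ih M₁ hlt
      ⟨hpos, hM.2.1.squarefree_of_dvd hd₁, fun hgood h => hM.2.2.1 hgood (h.trans hd₁),
        isResiduallyModularOfLevel_of_dvd hΔ (Nat.dvd_lcm_left M' P) hmod'⟩
      fun R hR => (Finset.dvd_prod_of_mem _ hR).trans (Nat.dvd_lcm_right M' P)
    exact ⟨M₀, hd₀.trans hd₁, hbase⟩

/-- No auxiliary prime is needed for `p ≠ 3`. -/
theorem auxExists_five : AuxExists 5 := fun _W _S _ _ _ =>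
  ⟨∅, ⟨by simp, by simp, by simp, by simp, fun h => absurd h (by norm_num)⟩, by simp⟩

/-- An auxiliary prime for `W` at `3`, outside a given finite set. -/
theorem Lower.exists_aux_prime [Fact (Nat.Prime 3)] {W : WeierstrassCurve ℤ} {C : Coeff 3} (R : ResidualData W C)
    (h : OddResidual W 3) (S : Finset ℕ) :
    ∃ r : ℕ, r.Prime ∧ r ∉ S ∧ r % 3 = 2 ∧ r ≠ 3 ∧ (r : ResidueField C.O) = -1 ∧
      Unramified W 3 r ∧ ∀ A : ValuationSubring Qbar, A.LiesOverPrime r → ∀ φ : GQ,
        A.IsFrobeniusAt φ r → (R.D.rbar φ).trace ≠ 0 := by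
  classical
  have hgood : ∀ x : ℕ, x.Prime → x ∉ S ∪ W.Δ.natAbs.primeFactors → W.IsGoodPrimeFor x :=
    fun x hx hxS hd => hxS (Finset.mem_union_right _ (Nat.mem_primeFactors.2
      ⟨hx, Int.natCast_dvd.1 hd, Int.natAbs_ne_zero.2 h.delta_ne_zero⟩))
  obtain ⟨r, hr, hrS, hr3, hrp, hrk, hru, htr⟩ := exists_auxPrime_three (p := 3)
    (ρ := R.D.rbar) rfl C.residue_cyclo (R.finiteLevel h) (R.det_rbar h _ C.residue_cyclo)
    (R.indexTwo h) (S ∪ W.Δ.natAbs.primeFactors)
    (fun x hx hxS hxp A hA σ hσ => R.rbar_inertia_good hx hxp (hgood x hx hxS) hA hσ)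
    (fun x => ((W.apOfModel x : ℤ) : ResidueField C.O))
    (fun x hx hxS hxp A hA φ hφ => R.trace_frob hx hxp (hgood x hx hxS) hA hφ)
  exact ⟨r, hr, fun hm => hrS (Finset.mem_union_left _ hm), hr3, hrp, hrk,
    R.unramified_iff.2 hru, htr⟩

/-- An auxiliary prime at `3`. -/
theorem auxExists_three : AuxExists 3 := by
  classical
  have : Fact (Nat.Prime 3) := ⟨Nat.prime_three⟩
  intro W S hΔ hW hirr
  have h := oddResidual_of_semistable (p := 3) (by norm_num) hΔ hW hirr
  obtain ⟨C⟩ := nonempty_coeff 3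
  obtain ⟨D⟩ := nonempty_residualData h C
  obtain ⟨R, hR, hRS, hR3, hRp, -, -, hne⟩ :=
    Lower.exists_aux_prime D h (S ∪ W.Δ.natAbs.primeFactors)
  have hgood : W.IsGoodPrimeFor R := fun hd => hRS (Finset.mem_union_right _
    (Nat.mem_primeFactors.2 ⟨hR, Int.natCast_dvd.1 hd, Int.natAbs_ne_zero.2 hΔ⟩))
  refine ⟨{R}, ⟨by simpa, by simpa using hgood, by simp; omega, ?_, fun _ => by simp⟩,
    by simpa using fun h => hRS (Finset.mem_union_left _ h)⟩
  intro R' hR' hd
  obtain rfl := Finset.mem_singleton.1 hR'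
  obtain ⟨A, hA⟩ := Frobenius.exists_liesOverPrime Qbar hR
  obtain ⟨φ, hφ⟩ := Frobenius.exists_isFrobeniusAt_qbar hR hA
  refine hne A hA φ hφ ?_
  rw [D.trace_frob hR hRp hgood hA hφ]
  exact (CharP.intCast_eq_zero_iff (ResidueField C.O) 3 _).2 hd

end Fermat.Agent.General

end
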