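import Fermat.Agent.General.Goals
import Fermat.Agent.General.MazurThree.Main
import Fermat.Agent.General.Top.OddResidual
import Fermat.Agent.General.Lower.Cases
import Fermat.Agent.General.Lower.Drop
import Fermat.Agent.General.Lower.Ramified
import Fermat.Agent.Engine.Top.Convert

/-!
# Lowering at `3`

`lowering_three`: an auxiliary prime `r ≡ 2 (mod 3)` at which no lift ramifies joins the level,
Mazur's principle at `3` or Taylor's trick removes the superfluous prime, and `r` leaves again.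
-/

noncomputable section

open IsLocalRing Fermat.Agent.DefRing Fermat.Agent.Deform Fermat.Agent.Engine Fermat.Agent.Engine.Top

namespace Fermat.Agent.General

namespace Lower

local notation "Qbar" => AlgebraicClosure ℚ

variable {W : WeierstrassCurve ℤ}

/-- A squarefree number times a new prime is squarefree. -/
theorem squarefree_mul_prime {M r : ℕ} (hM : Squarefree M) (hr : r.Prime) (hrM : ¬ r ∣ M) :
    Squarefree (M * r) :=
  Nat.squarefree_mul_iff.2 ⟨((hr.coprime_iff_not_dvd).2 hrM).symm, hM, hr.squarefree⟩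

/-- Lowering with the auxiliary prime in the level. -/
theorem exists_level_three [Fact (Nat.Prime 3)] {C : Coeff 3} (R : ResidualData W C)
    (h : OddResidual W 3) {r : ℕ} (hr : r.Prime) (hr3 : r % 3 = 2) (hrp : r ≠ 3)
    (hru : Unramified W 3 r)
    (htr0 : ∀ A : ValuationSubring Qbar, A.LiesOverPrime r → ∀ φ : GQ, A.IsFrobeniusAt φ r →
      (R.D.rbar φ).trace ≠ 0)
    {q : ℕ} (hq : q.Prime) (hqp : q ≠ 3) (hunr : Unramified W 3 q) (M : ℕ) (hqM : q ∣ M)
    (hrM : ¬ r ∣ M) (hM : Squarefree M) (hgp : W.IsGoodPrimeFor 3 → ¬ 3 ∣ M)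
    (hmod : W.IsResiduallyModularOfLevel 3 (M * r)) :
    ∃ M' : ℕ, M' ∣ M ∧ ¬ q ∣ M' ∧ W.IsResiduallyModularOfLevel 3 (M' * r) := by
  induction M using Nat.strong_induction_on with
  | _ M ih =>
    have hMr : Squarefree (M * r) := squarefree_mul_prime hM hr hrM
    have hmazur : ∀ w : ℕ, w.Prime → w ≠ 3 → w ∣ M → ¬ 3 ∣ w - 1 → Unramified W 3 w →
        W.IsResiduallyModularOfLevel 3 (M / w * r) := by
      intro w hw hw3 hwM hw1 hwu
      rw [← Nat.mul_div_right_comm hwM]
      exact mazurThree W (M * r) w r h.delta_ne_zero h.irreducible hw hw3 (hwM.mul_right r) hMr hw1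
        hwu hr (dvd_mul_left r M) (fun he => hrM (he ▸ hwM)) hr3 hmod
    obtain ⟨hd, hsq, hnd, -⟩ := div_prime_facts hq hqM hM
    by_cases hq1 : 3 ∣ q - 1
    · by_cases hall : ∀ w : ℕ, w.Prime → w ∣ M → w ≠ 3 → Unramified W 3 w → 3 ∣ w - 1
      · refine ⟨M / q, hd, hnd, ?_⟩
        rw [← Nat.mul_div_right_comm hqM]
        have : NeZero (M * r) := ⟨hMr.ne_zero⟩
        obtain ⟨a, f, 𝔪, hf, h𝔪, hp𝔪, ha, hspec⟩ := exists_system h hmod
        exact lowering_one_three (M := M) R h rfl hMr hr hrp hr3 hru htr0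
          (mem_extraPrimes.2 ⟨hq, hqM, hM.ne_zero, hqp, hunr⟩)
          (fun w hw => by
            obtain ⟨hw1, hw2, -, hw3, hw4⟩ := mem_extraPrimes.1 hw
            exact hall w hw1 hw2 hw3 hw4)
          hgp a ha (fun ℓ hℓ hℓN hℓp => (hspec ℓ hℓ hℓN hℓp).2) hf h𝔪 hp𝔪
          (fun ℓ hℓ hℓN hℓp => (hspec ℓ hℓ hℓN hℓp).1)
      · push Not at hall
        obtain ⟨w, hw, hwM, hw3, hwu, hw1⟩ := hall
        obtain ⟨hd', hsq', -, hlt⟩ := div_prime_facts hw hwM hM
        have hqw : q ≠ w := fun he => hw1 (he ▸ hq1)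
        have hqM' : q ∣ M / w := by
          have h' := hqM
          rw [← Nat.mul_div_cancel' hwM] at h'
          exact ((Nat.Prime.dvd_mul hq).1 h').resolve_left fun h'' =>
            hqw ((Nat.prime_dvd_prime_iff_eq hq hw).1 h'')
        obtain ⟨M', hM', hqM'', hmod'⟩ := ih (M / w) hlt hqM' (fun hh => hrM (hh.trans hd')) hsq'
          (fun hg hh => hgp hg (hh.trans hd')) (hmazur w hw hw3 hwM hw1 hwu)
        exact ⟨M', hM'.trans hd', hqM'', hmod'⟩
    · exact ⟨M / q, hd, hnd, hmazur q hq hqp hqM hq1 hunr⟩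

end Lower

/-- **Lowering at `3`.** -/
theorem lowering_three : Lowering 3 := by
  intro W M q hΔ hss hirr hq hqp hqM hunr hM
  obtain ⟨hM0, hMsq, hMgood, hmod⟩ := hM
  have : Fact (Nat.Prime 3) := ⟨Nat.prime_three⟩
  have h : OddResidual W 3 := oddResidual_of_semistable (by norm_num) hΔ hss hirr
  obtain ⟨C⟩ := nonempty_coeff 3
  obtain ⟨R⟩ := nonempty_residualData h C
  obtain ⟨r, hr, hrS, hr3, hrp, hrk, hru, htr⟩ := Lower.exists_aux_prime R h M.primeFactors
  have hrM : ¬ r ∣ M := fun hd => hrS (Nat.mem_primeFactors.2 ⟨hr, hd, hM0.ne'⟩)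
  have hMr := Lower.squarefree_mul_prime hMsq hr hrM
  have : NeZero (M * r) := ⟨hMr.ne_zero⟩
  obtain ⟨M', hM', hqM', hmod'⟩ := Lower.exists_level_three R h hr hr3 hrp hru htr hq hqp hunr M
    hqM hrM hMsq hMgood (isResiduallyModularOfLevel_of_dvd hΔ (dvd_mul_right M r) hmod)
  have : NeZero M' := ⟨fun h0 => hM0.ne' (Nat.eq_zero_of_zero_dvd (h0 ▸ hM'))⟩
  have hsq' : Squarefree M' := hMsq.squarefree_of_dvd hM'
  refine ⟨M', hM', hqM', Nat.pos_of_neZero M', hsq', fun hg hd => hMgood hg (hd.trans hM'), ?_⟩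
  exact Lower.residuallyModular_drop R h
    (Lower.squarefree_mul_prime hsq' hr fun hd => hrM (hd.trans hM')) hr hrp
    (Or.inr ⟨r, hr, dvd_mul_left r M', hr3⟩) hrk htr hmod'

end Fermat.Agent.General

end
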