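import Fermat.Agent.MazurPrinciple.IsOld
import Fermat.Agent.General.MazurThree.Main

/-!
# At `p = 3` an unramified system of level `M q`, `q ≡ 1 (mod 3)`, occurs at level `M`

As `MazurPrinciple.unramifiedIsOld`: the exponents at the pairs are prime to `3` by the cube root
`η(z) ^ 8 / η(q z) ^ 8` of `Δ(z) / Δ(q z)`, so no auxiliary prime is needed.
-/

noncomputable section

open IsLocalRing ModularCurve AlgebraicCurve Matrix Fermat.Agent.EigenRep
  Fermat.Agent.SemistableRed Fermat.Agent.DefRing Fermat.Agent.MazurPrinciple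

namespace Fermat.Agent.General

local notation "Qbar" => AlgebraicClosure ℚ
local notation "Jtors" N:max n:max => Pic0.torsion (AlgebraicClosure ℚ) (modularFunctionFieldBar N) n

variable {O : Type} [CommRing O] [IsDomain O] [IsDiscreteValuationRing O]
  [IsAdicComplete (maximalIdeal O) O] [CharZero O] {p : ℕ} [Fact p.Prime]

omit [IsDiscreteValuationRing O] [IsAdicComplete (maximalIdeal O) O] [CharZero O] in
/-- `(φ + q w) P (T_ℓ - ℓ - 1)` kills the fixed vectors of the Tate module. -/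
theorem padic_mulVec_eq_zero_three {A : ValuationSubring Qbar} {M q : ℕ} [NeZero M] [NeZero q]
    [Fact q.Prime] [CharP (ResidueField A) q] [IsAlgClosed (ResidueField A)] {S : Setting A M q}
    {φ : Qbar ≃ₐ[ℚ] Qbar} (hφ : A.IsFrobeniusAt φ q) (hp : p = 3) (hq3 : q % 3 = 1) (hqp : q ≠ p) {ℓ : ℕ}
    [NeZero ℓ] (hℓ : ℓ.Prime) (hℓN : ¬ ℓ ∣ M * q * p) (P : GoodHecke (M * q * p))
    (hP : ∀ (n : ℕ) (ξ : JZero M), p ^ n • ξ = 0 →
      (letI := heckeModuleBar M; toHecke P • ξ) = 0)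
    (I : RepInputs (M * q) p) (x : Fin I.model.d → ℤ_[p])
    (hx : ∀ σ : A.inertiaSubgroupIn ℚ, galMat I.model σ.1 *ᵥ x = x) :
    ((galMat I.model φ + q • Engine.Lifting.mapPadic I.model I.model (wJ S)) *
      (evalT I.model (badSet (M * q * p))
        (P * (MvPolynomial.X ⟨⟨ℓ, hℓ⟩, hℓN⟩ - MvPolynomial.C ((ℓ : ℤ) + 1))) :
        Matrix (Fin I.model.d) (Fin I.model.d) ℤ).map (Int.cast : ℤ → ℤ_[p])) *ᵥ x = 0 := by
  funext i
  refine PadicInt.ext_of_toZModPow.mp fun n => ?_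
  set E := (evalT I.model (badSet (M * q * p))
    (P * (MvPolynomial.X ⟨⟨ℓ, hℓ⟩, hℓN⟩ - MvPolynomial.C ((ℓ : ℤ) + 1))) :
    Matrix (Fin I.model.d) (Fin I.model.d) ℤ) with hE
  have hgal : ∀ σ, (galMat I.model σ).map (PadicInt.toZModPow n) = levelMat I.model n σ :=
    fun σ => matMod_galMat I.model n σ
  have hmod : ((1 : ℕ) : ZMod 3) = q := (ZMod.natCast_eq_natCast_iff' 1 q 3).mpr hq3.symm
  have h := MazurThree.mulVec_eq_zero_of_inertia_three (S := S) (k := n) hφ hp (one_dvd M) hmod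
    (by rw [← hmod]; decide) hqp hℓ hℓN P (hP n) I
    (E := E.map (Int.castRingHom (ZMod (p ^ n)))) (fun u y hy => by
      obtain ⟨y', hy', hye⟩ := exists_evalT_mulVec I.model
        (P * (MvPolynomial.X ⟨⟨ℓ, hℓ⟩, hℓN⟩ - MvPolynomial.C ((ℓ : ℤ) + 1))) n u
      rw [show y = y' from Subtype.ext (hy.trans hy'.symm)]
      exact hye)
    (PadicInt.toZModPow n ∘ x) fun σ => by
      funext j
      rw [← hgal, ← RingHom.map_mulVec, hx σ]
      rfl
  rw [RingHom.map_mulVec, Matrix.map_mul, Matrix.map_add _ (map_add _), Pi.zero_apply, map_zero,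
    hgal, show (q • Engine.Lifting.mapPadic I.model I.model (wJ S)).map (PadicInt.toZModPow n) =
      q • mapMat I.model I.model (wJ S) n by
        rw [← Engine.Lifting.mapPadic_mod]
        ext j l
        simp only [Matrix.map_apply, Matrix.smul_apply]
        exact map_nsmul _ _ _,
    show (E.map (Int.cast : ℤ → ℤ_[p])).map (PadicInt.toZModPow n) =
      E.map (Int.castRingHom (ZMod (p ^ n))) by ext; simp]
  exact congrFun h i

/-- **An unramified irreducible system of level `M q` occurs at level `M`.** -/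
theorem occurs_of_unramified_three (hp3 : p = 3) {M q : ℕ} [NeZero M] (hq3 : q % 3 = 1) (hq : q.Prime) (hqp : q ≠ p)
    (hqM : ¬ q ∣ M) (S : Finset ℕ) (a : ℕ → O) (ρ : GaloisRepAdic O) (hqS : q ∈ S) (hpS : p ∈ S)
    (hMS : ∀ r : ℕ, r.Prime → r ∣ M → r ∈ S)
    (hocc : Engine.Occurs (FractionRing O) (M * q) 1 S
      fun ℓ => algebraMap O (FractionRing O) (a ℓ))
    (hatt : Engine.IsAttachedSystem O p ρ S a)
    (hspan : Submodule.span O (Set.range fun σ => ρ.ρ σ) = ⊤) (hunr : ρ.IsUnramifiedAt q) :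
    Engine.Occurs (FractionRing O) M 1 S fun ℓ => algebraMap O (FractionRing O) (a ℓ) := by
  classical
  by_contra hnot
  have hp : p.Prime := Fact.out
  have hp' : (p : O) ∈ maximalIdeal O := hatt.1.1
  have : Fact q.Prime := ⟨hq⟩
  have : NeZero q := ⟨hq.ne_zero⟩
  set K := FractionRing O
  have : CharZero K := charZero_of_injective_algebraMap (IsFractionRing.injective O K)
  let L := AlgebraicClosure K
  set f : O →+* L := (algebraMap K L).comp (algebraMap O K)
  have hf : Function.Injective f := (algebraMap K L).injective.comp (IsFractionRing.injective O K)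
  have : CharZero L := charZero_of_injective_algebraMap (algebraMap K L).injective
  -- the level containing `S`
  set N' := M * q * p * ∏ r ∈ S.filter Nat.Prime, r
  have hSN : ∀ r : ℕ, r.Prime → r ∉ S → ¬ r ∣ N' := fun r hr hrS h => by
    rcases hr.dvd_mul.mp h with h | h
    · rcases hr.dvd_mul.mp h with h | h
      · rcases hr.dvd_mul.mp h with h | h
        · exact hrS (hMS r hr h)
        · exact hrS ((Nat.prime_dvd_prime_iff_eq hr hq).mp h ▸ hqS)
      · exact hrS ((Nat.prime_dvd_prime_iff_eq hr hp).mp h ▸ hpS)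
    · obtain ⟨s, hs, hrs⟩ := (hr.prime.dvd_finsetProd_iff _).mp h
      rw [Finset.mem_filter] at hs
      exact hrS ((Nat.prime_dvd_prime_iff_eq hr hs.2).mp hrs ▸ hs.1)
  have hNS : ∀ r : Nat.Primes, ¬ (r : ℕ) ∣ N' → (r : ℕ) ∉ (↑S : Set ℕ) := fun r hr hrS =>
    hr (dvd_mul_of_dvd_right (Finset.dvd_prod_of_mem _ (Finset.mem_filter.mpr ⟨hrS, r.2⟩)) _)
  have hSMq : ∀ r : ℕ, r.Prime → r ∉ S → ¬ r ∣ M * q := fun r hr hrS h =>
    hSN r hr hrS ((h.mul_right p).mul_right _)
  -- the eigenvector and the polynomial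
  obtain ⟨ℓ, hℓ, hℓS, hℓ1, hℓa⟩ := SquareOld.exists_prime_eigen_ne hatt
    (irreducible_of_span ρ hspan) hpS (M * q) (Nat.pos_of_ne_zero (NeZero.ne _))
  obtain ⟨v, hv, hvE⟩ := exists_integral_eigenvector (p := p) hSMq hocc ⟨ℓ, hℓ, hℓS, hℓ1, hℓa⟩
  obtain ⟨P₀, hP₀, hP₀ne⟩ := exists_killing_poly (p := p) hSN
    (fun r => algebraMap O K (a r)) hnot
  have hdvd : M * q * p ∣ N' := dvd_mul_right _ _
  let incl : {r : Nat.Primes // ¬ (r : ℕ) ∣ N'} → {r : Nat.Primes // ¬ (r : ℕ) ∣ M * q * p} :=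
    fun r => ⟨r.1, fun h => r.2 (h.trans hdvd)⟩
  let P : GoodHecke (M * q * p) := MvPolynomial.rename incl P₀
  have hPkill := toHecke_rename_smul_eq_zero hdvd P₀ hP₀
  have hℓN : ¬ ℓ ∣ M * q * p := fun h => hSN ℓ hℓ hℓS (h.trans hdvd)
  have : NeZero ℓ := ⟨hℓ.ne_zero⟩
  let R : GoodHecke (M * q * p) :=
    P * (MvPolynomial.X ⟨⟨ℓ, hℓ⟩, hℓN⟩ - MvPolynomial.C ((ℓ : ℤ) + 1))
  let R₀ : GoodHecke N' :=
    P₀ * (MvPolynomial.X ⟨⟨ℓ, hℓ⟩, hSN ℓ hℓ hℓS⟩ - MvPolynomial.C ((ℓ : ℤ) + 1))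
  set I := Engine.TRep.levelInputs (M * q) p
  set lam : Nat.Primes → L := fun l => f (a l)
  have hlam : MvPolynomial.eval₂ (Int.castRingHom L) (fun r => lam r.1) R₀ ≠ 0 := by
    rw [MvPolynomial.eval₂_mul, MvPolynomial.eval₂_sub, MvPolynomial.eval₂_X, MvPolynomial.eval₂_C]
    refine mul_ne_zero (fun h0 => hP₀ne ((algebraMap K L).injective ?_)) (sub_ne_zero.mpr ?_)
    · rw [MvPolynomial.eval₂_comp_left, map_zero,
        RingHom.ext_int ((algebraMap K L).comp (Int.castRingHom K)) (Int.castRingHom L)]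
      exact h0
    · intro e
      refine hℓa (hf ?_)
      simpa [lam] using e
  have hER : (evalT I.model (badSet (M * q * p)) R : Matrix (Fin I.model.d) (Fin I.model.d) ℤ) =
      evalT I.model (badSet N') R₀ := by
    rw [← evalT_rename I.model hdvd, show MvPolynomial.rename incl R₀ = R by
      simp only [R₀, R, P, map_mul, map_sub, MvPolynomial.rename_X, MvPolynomial.rename_C]; rfl]
  -- geometry
  obtain ⟨A, φ, hA, hφ⟩ := Frobenius.exists_liesOverPrime_and_isFrobeniusAt_qbar hq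
  have := Reduction.charP_residueField hA
  have : IsAlgClosed (ResidueField A) := Reduction.isAlgClosed_residueField
  let St : Setting A M q := ⟨hqM, hA, ⟨_, IgusaGenus.reductionFacts hqM hA⟩⟩
  obtain ⟨N₁, Φ, hsp, hΦ, hΦE, hΦg, hΦ1, hΦdet⟩ := exists_embedding_adic I hp' S (fun l => a l) ρ
    hatt.1 (fun r hr hrS B hB σ hσ => hatt.2 r hr hrS B hB σ hσ) hspan f hv hf hvE
  set ιL := f.comp (padicHom p hp')
  set Wp := Engine.Lifting.mapPadic I.model I.model (wJ St)
  set Wk := Wp.map ιL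
  have hWL : ∀ σ, Wk * (galMat I.model σ).map ιL = (galMat I.model σ).map ιL * Wk := fun σ => by
    rw [← Matrix.map_mul, ← Matrix.map_mul,
      Engine.Lifting.mapPadic_mul_galMat I.model I.model (isGaloisEquivariant_wJ (S := St)) σ]
  have hWW : Wk * Wk = 1 := by
    rw [← Matrix.map_mul, mapPadic_wJ_mul_self (S := St) I,
      Matrix.map_one _ ιL.map_zero ιL.map_one]
  have hrel : ∀ c, (galMat I.model φ).map ιL *ᵥ Φ c + (q : L) • (Wk *ᵥ Φ c) = 0 := by
    intro c
    have h := mulVec_eq_zero_of_fixed_padic _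
      (fun σ : A.inertiaSubgroupIn ℚ => galMat I.model σ.1)
      (padic_mulVec_eq_zero_three (S := St) hφ hp3 hq3 hqp hℓ hℓN P hPkill I) ιL (v := Φ c) fun σ => by
      rw [hΦg, hΦ1 σ.1 (hunr A hA σ.1 σ.2), one_mulVec]
    rw [map_mulVec_split, hER, show ((evalT I.model (badSet N') R₀ :
        Matrix (Fin I.model.d) (Fin I.model.d) ℤ).map (Int.cast : ℤ → ℤ_[p])).map ιL =
        (evalT I.model (badSet N') R₀ : Matrix (Fin I.model.d) (Fin I.model.d) ℤ).map
          (Int.cast : ℤ → L) by ext; simp,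
      evalT_mulVec_eigen I.model hNS (hΦE c) R₀, mulVec_smul, mulVec_smul, smul_comm (q : L),
      ← smul_add, smul_eq_zero] at h
    exact h.resolve_left hlam
  obtain ⟨c₀, hc₀, hsq⟩ := exists_scalar_of_swap N₁ Φ hΦ hsp
    (fun σ => (galMat I.model σ).map ιL) hΦg Wk hWL hWW φ (q : L) hrel
  have hdet := hΦdet φ
  rw [hc₀, epsilon_frobenius hq hqp hA hφ, map_natCast, map_natCast, Matrix.det_smul,
    Matrix.det_one, mul_one, Fintype.card_fin, sq, hsq] at hdet
  have hq1 : (q : L) = 1 :=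
    mul_left_cancel₀ (Nat.cast_ne_zero.mpr hq.ne_zero) (by rw [mul_one]; exact hdet)
  exact hq.ne_one (by exact_mod_cast hq1)

end Fermat.Agent.General

end
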