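import Fermat.Agent.Engine.Top.LowerCore
import Fermat.Agent.Engine.TRep.EigenPoint

/-!
# The system at a point of an action on the classes

From matrices of the Hecke operators on the localised classes given by the traces of the universal
representation, and a point killing their kernel: the attached representation, its congruence with
the residual traces, and the system which occurs.
-/

noncomputable section

open IsLocalRing GaloisRep Fermat.Agent.DefRing Fermat.Agent.Deform

namespace Fermat.Agent.General.Lower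

open Engine Engine.Top HeckeModule TRep

local notation "Qbar" => AlgebraicClosure ℚ

variable {O : Type} [CommRing O] [IsDomain O] [IsDiscreteValuationRing O]
  [IsAdicComplete (maximalIdeal O) O] [Finite (ResidueField O)] [CharZero O] {p : ℕ} [Fact p.Prime]
  {L₀ : LevelData O} {PB : L₀.RepRing}
  {O' : Type} [CommRing O'] [IsDomain O'] [IsDiscreteValuationRing O']
  [IsAdicComplete (maximalIdeal O') O'] [Algebra O O'] (θ : PB.R →ₐ[O] O')

/-- The representation at a point. -/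
def pointRep (hθ : IsLocalHom (θ : PB.R →+* O')) : GaloisRepAdic O' :=
  toAdic (mapRep (θ : PB.R →+* O') PB.rep) (PB.isLift.cont.map _ hθ)

omit [IsAdicComplete (maximalIdeal O) O] [Finite (ResidueField O)] [CharZero O]
    [IsAdicComplete (maximalIdeal O') O'] in
theorem trace_pointRep (hθ : IsLocalHom (θ : PB.R →+* O')) (σ : GQ) :
    (pointRep θ hθ).trace σ = θ (PB.rep σ).trace := by
  show LinearMap.trace O' (Fin 2 → O') (Matrix.toLin' ((PB.rep σ).map θ)) = _
  rw [Matrix.trace_toLin'_eq]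
  exact (AddMonoidHom.map_trace θ.toRingHom.toAddMonoidHom _).symm

omit [IsAdicComplete (maximalIdeal O) O] [Finite (ResidueField O)] [CharZero O]
    [IsAdicComplete (maximalIdeal O') O'] [Fact (Nat.Prime p)] in
/-- **Attached to the traces.** -/
theorem isAttached_pointRep (hθ : IsLocalHom (θ : PB.R →+* O'))
    (hl : IsLocalHom (algebraMap O O')) (hp : (p : O) ∈ maximalIdeal O)
    (hdet : IsPadicCyclotomic p L₀.detChar) (Fr : ℕ → GQ) (S : Finset ℕ)
    (hFr : ∀ ℓ : ℕ, ℓ.Prime → ℓ ∉ S → ∀ A : ValuationSubring Qbar, A.LiesOverPrime ℓ →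
      ∀ σ : GQ, A.IsFrobeniusAt σ ℓ → θ (PB.rep σ).trace = θ (PB.rep (Fr ℓ)).trace) :
    IsAttachedSystem O' p (pointRep θ hθ) S (traceSystem θ Fr) := by
  refine ⟨⟨?_, fun n σ a ha => ?_⟩, fun ℓ hℓ hℓS A hA σ hσ => ?_⟩
  · rw [← map_natCast (algebraMap O O')]
    exact fun hu => hp (hl.map_nonunit _ hu)
  · obtain ⟨c, hc⟩ := Ideal.mem_span_singleton.1 (hdet n σ a ha)
    refine Ideal.mem_span_singleton.2 ⟨algebraMap O O' c, ?_⟩
    show LinearMap.det (Matrix.toLin' ((PB.rep σ).map θ)) - _ = _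
    rw [LinearMap.det_toLin', show ((PB.rep σ).map θ).det = θ (PB.rep σ).det from
      (RingHom.map_det (θ : PB.R →+* O') _).symm, PB.isLift.eqs.det σ]
    rw [AlgHom.commutes, ← map_natCast (algebraMap O O') a, ← map_sub, hc, map_mul,
      map_pow, map_natCast (algebraMap O O'), Nat.cast_pow]
  · rw [trace_pointRep, traceSystem, ← hFr ℓ hℓ hℓS A hA σ hσ]

omit [IsAdicComplete (maximalIdeal O) O] [Finite (ResidueField O)] [CharZero O]
    [IsAdicComplete (maximalIdeal O') O'] in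
/-- The trace at a point is the residual one. -/
theorem trace_pointRep_sub_mem (hθ : IsLocalHom (θ : PB.R →+* O')) {σ : GQ} {o : O}
    (h : (L₀.D.rbar σ).trace = residue O o) :
    (pointRep θ hθ).trace σ - algebraMap O O' o ∈ maximalIdeal O' := by
  rw [trace_pointRep]
  exact point_trace_sub_mem PB θ hθ h

omit [IsAdicComplete (maximalIdeal O) O] [Finite (ResidueField O)] [CharZero O] [IsDomain O']
    [IsDiscreteValuationRing O'] [IsAdicComplete (maximalIdeal O') O'] in
/-- The Frobenius traces do not depend on the choice. -/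
theorem trace_frob_eq {N : ℕ} [NeZero N] {lam : ℕ → O} {d : ℕ}
    {hsO : Function.Surjective (residue O ∘ algebraMap O O)}
    (act : PB.R →+* Matrix (Fin d) (Fin d) O) (hkθ : RingHom.ker act ≤ RingHom.ker θ)
    (b : Module.Basis (Fin d) O (BaseClasses hsO L₀.Sigma lam N))
    (hb : ∀ (ℓ : ℕ) (hℓ : ℓ.Prime), ℓ ∉ L₀.Sigma → ∀ A : ValuationSubring Qbar,
      A.LiesOverPrime ℓ → ∀ σ : GQ, A.IsFrobeniusAt σ ℓ → ∀ x,
        ⇑(b.repr ((MvPolynomial.X (⟨ℓ, hℓ⟩ : Nat.Primes) : HeckePoly O) • x)) =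
          Matrix.mulVec (act (PB.rep σ).trace) ⇑(b.repr x))
    {ℓ : ℕ} (hℓ : ℓ.Prime) (hℓS : ℓ ∉ L₀.Sigma) {A B : ValuationSubring Qbar}
    (hA : A.LiesOverPrime ℓ) (hB : B.LiesOverPrime ℓ) {σ τ : GQ} (hσ : A.IsFrobeniusAt σ ℓ)
    (hτ : B.IsFrobeniusAt τ ℓ) : θ (PB.rep σ).trace = θ (PB.rep τ).trace := by
  rw [← sub_eq_zero, ← map_sub]
  refine hkθ (RingHom.mem_ker.2 (Matrix.toLin'.injective (LinearMap.ext fun c => ?_)))
  rw [map_sub, map_sub, map_zero, LinearMap.sub_apply, Matrix.toLin'_apply, Matrix.toLin'_apply,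
    LinearMap.zero_apply]
  obtain ⟨x, rfl⟩ : ∃ x, ⇑(b.repr x) = c := ⟨b.equivFun.symm c, b.equivFun.apply_symm_apply c⟩
  rw [← hb ℓ hℓ hℓS A hA σ hσ x, ← hb ℓ hℓ hℓS B hB τ hτ x, sub_self]

omit [Finite (ResidueField O)] [CharZero O] [IsDiscreteValuationRing O']
    [IsAdicComplete (maximalIdeal O') O'] in
/-- **The system at the point occurs.** -/
theorem occurs_of_point [CharZero O'] {N : ℕ} [NeZero N] {lam : ℕ → O} {d : ℕ}
    {hsO : Function.Surjective (residue O ∘ algebraMap O O)}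
    (act : PB.R →+* Matrix (Fin d) (Fin d) O)
    (hact : ∀ o : O, act (algebraMap O PB.R o) = o • 1) (hkθ : RingHom.ker act ≤ RingHom.ker θ)
    (b : Module.Basis (Fin d) O (BaseClasses hsO L₀.Sigma lam N))
    (hb : ∀ (ℓ : ℕ) (hℓ : ℓ.Prime), ℓ ∉ L₀.Sigma → ∀ A : ValuationSubring Qbar,
      A.LiesOverPrime ℓ → ∀ σ : GQ, A.IsFrobeniusAt σ ℓ → ∀ x,
        ⇑(b.repr ((MvPolynomial.X (⟨ℓ, hℓ⟩ : Nat.Primes) : HeckePoly O) • x)) =
          Matrix.mulVec (act (PB.rep σ).trace) ⇑(b.repr x))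
    (hexact : ExactHyp (awayMonoid (lamIdeal hsO L₀.Sigma lam)) (1 : (ZMod N)ˣ →* O))
    (A : ℕ → ValuationSubring Qbar) (Fr : ℕ → GQ)
    (hFr : ∀ ℓ : ℕ, ℓ.Prime → (A ℓ).LiesOverPrime ℓ ∧ (A ℓ).IsFrobeniusAt (Fr ℓ) ℓ) :
    Engine.Occurs (FractionRing O') N 1 L₀.Sigma
      fun ℓ => algebraMap O' (FractionRing O') (traceSystem θ Fr ℓ) := by
  classical
  set K := FractionRing O'
  have : CharZero K := charZero_of_injective_algebraMap (IsFractionRing.injective O' K)
  set a := traceSystem θ Fr with ha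
  let Ψ : AwayPoly O (↑L₀.Sigma : Set ℕ) →+* PB.R := MvPolynomial.eval₂Hom (algebraMap O PB.R)
    fun l => (PB.rep (Fr ((l : Nat.Primes) : ℕ))).trace
  have hΨ : ∀ P x, ⇑(b.repr (awayIncl O (↑L₀.Sigma : Set ℕ) P • x)) =
      Matrix.mulVec (act (Ψ P)) ⇑(b.repr x) := by
    intro P
    induction P using MvPolynomial.induction_on with
    | C o =>
      intro x
      rw [← MvPolynomial.algebraMap_eq, AlgHom.commutes, algebraMap_smul, map_smul,
        MvPolynomial.algebraMap_eq, MvPolynomial.eval₂Hom_C, hact, Matrix.smul_mulVec,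
        Matrix.one_mulVec]
      rfl
    | add P P' h h' =>
      intro x
      rw [map_add, add_smul, map_add, Finsupp.coe_add, h, h', map_add, map_add, Matrix.add_mulVec]
    | mul_X P l h =>
      intro x
      rw [map_mul, mul_smul, h, map_mul, map_mul, ← Matrix.mulVec_mulVec,
        MvPolynomial.eval₂Hom_X']
      refine congrArg _ ?_
      rw [← hb _ (l : Nat.Primes).2 l.2 _ (hFr _ (l : Nat.Primes).2).1 _
        (hFr _ (l : Nat.Primes).2).2 x]
      simp [awayIncl]
  let φ : AwayPoly O (↑L₀.Sigma : Set ℕ) →+* K :=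
    (algebraMap O' K).comp ((θ : PB.R →+* O').comp Ψ)
  have hφker : ∀ P, (∀ x : BaseClasses hsO L₀.Sigma lam N,
      awayIncl O (↑L₀.Sigma : Set ℕ) P • x = 0) → φ P = 0 := fun P hP => by
    have h0 : act (Ψ P) = 0 := Matrix.toLin'.injective (LinearMap.ext fun c => by
      obtain ⟨x, rfl⟩ : ∃ x, ⇑(b.repr x) = c := ⟨b.equivFun.symm c, b.equivFun.apply_symm_apply c⟩
      rw [Matrix.toLin'_apply, ← hΨ, hP, map_zero, map_zero]
      rfl)
    show algebraMap O' K (θ (Ψ P)) = 0
    rw [show θ (Ψ P) = 0 from hkθ h0, map_zero]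
  have : Module.Finite O (BaseClasses hsO L₀.Sigma lam N) :=
    finite_cohLoc _ _ (maximalIdeal_le_lamIdeal hsO L₀.Sigma lam)
  have hocc := TRep.occurs_of_cohChar (lamIdeal hsO L₀.Sigma lam) hexact φ hφker
    (lam := fun ℓ => algebraMap O' K (a ℓ)) fun l => by
      show algebraMap O' K (θ _) = algebraMap O' K (θ (Ψ (MvPolynomial.X l)))
      rw [MvPolynomial.eval₂Hom_X']
  rw [MonoidHom.comp_one] at hocc
  exact hocc

end Fermat.Agent.General.Lower

end
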