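import Fermat.Agent.General.Lower.Point
import Fermat.Agent.General.Lower.IsOldThree
import Fermat.Agent.General.Lower.Drop
import Fermat.Agent.Engine.Top.LowerMain

/-!
# Lowering at `q ≡ 1 (mod 3)` from the modules of the auxiliary levels, `p = 3`

As `Engine.Top.lowering_of_levels`, with an auxiliary set of primes in the ramification set and the
level.
-/

noncomputable section

open IsLocalRing Fermat.Agent.DefRing Fermat.Agent.Deform

namespace Fermat.Agent.General.Lower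

open Engine Engine.Top HeckeModule TRep

local notation "Qbar" => AlgebraicClosure ℚ

variable {W : WeierstrassCurve ℤ} {p : ℕ} [Fact p.Prime] {C : Coeff p}

/-- **Lowering from levels.** -/
theorem lowering_of_levels_three (hp : p = 3) (R : ResidualData W C) (h : OddResidual W p)
    {N q : ℕ} [NeZero N] (hN : Squarefree N) {V T : Finset ℕ} (hqT : q ∈ T)
    (hone : ∀ w ∈ T, p ∣ w - 1) (a : ℕ → ℤ)
    (ha : ∀ ℓ : ℕ, ℓ.Prime → W.IsGoodPrimeFor ℓ → a ℓ = W.apOfModel ℓ)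
    {P : ValuationSubring Qbar} {cl : Closed C.O (P.decompositionSubgroup ℚ × Fin 2 × Fin 2)}
    {frob tame : T → GQ}
    (H : LoweringSetting p C.ι₀ N (fun ℓ => (a ℓ : C.O)) (fun v : T => (v : ℕ))
      (R.levelData V P cl) frob tame ⟨q, hqT⟩ C.ζ C.ζ')
    {PB : (R.levelData V P cl).RepRing} {d : ℕ} {r₀ : T} {Φ₀ : T → Matrix (Fin 2) (Fin 2) C.O}
    {X : AuxLevels d r₀ frob tame Φ₀ (R.levelData V P cl) PB}
    (B : LoweringLevels p X ⟨q, hqT⟩ C.ζ C.ζ')
    (b : Module.Basis (Fin B.rank) C.O (BaseClasses (O := C.O) (residue_surjective (R := C.O))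
      (R.levelData V P cl).Sigma (fun ℓ => (a ℓ : C.O)) N))
    (hb : ∀ (ℓ : ℕ) (hℓ : ℓ.Prime), ℓ ∉ (R.levelData V P cl).Sigma →
      ∀ A : ValuationSubring Qbar, A.LiesOverPrime ℓ → ∀ σ : GQ, A.IsFrobeniusAt σ ℓ → ∀ x,
        ⇑(b.repr ((MvPolynomial.X (⟨ℓ, hℓ⟩ : Nat.Primes) : HeckePoly C.O) • x)) =
          Matrix.mulVec (B.act₀' (PB.rep σ).trace) ⇑(b.repr x)) :
    W.IsResiduallyModularOfLevel p (N / q) := by
  classical
  have hact : ∀ o : C.O, B.act₀' (algebraMap C.O PB.R o) = o • 1 := fun o => by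
    rw [← (X.toBase 0).commutes, ← B.act'_base, B.act'_const]
    ext i j
    simp only [Matrix.map_apply, Matrix.smul_apply, Matrix.one_apply, smul_eq_mul]
    split_ifs <;> simp [twAug, twConst]
  have hqp : q.Prime := H.framed.prime ⟨q, hqT⟩
  obtain ⟨hd, hsq, hnd, -⟩ := div_prime_facts hqp H.dvd hN
  have hqv : ∀ w : T, ((w : ℕ) : C.O) - 1 ∈ maximalIdeal C.O := fun w => by
    obtain ⟨c, hc⟩ := hone _ w.2
    have h1 : (w : ℕ) = p * c + 1 := by
      have := (H.framed.prime w).one_le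
      omega
    rw [h1, Nat.cast_add, Nat.cast_mul, Nat.cast_one, add_sub_cancel_right]
    exact Ideal.mul_mem_right _ _ C.p_mem
  have hne : C.ζ ≠ 1 := C.ζ_primitive.ne_one (Fact.out : p.Prime).one_lt
  obtain ⟨Q, hQ, hker, hv, hO⟩ := B.exists_prime H.framed H.two H.zeta_mul H.zeta_pow
    H.zeta_mem hne hqv
  have hexact : ExactHyp (awayMonoid (lamIdeal (residue_surjective (R := C.O))
      (R.levelData V P cl).Sigma (fun ℓ => (a ℓ : C.O)))) (1 : (ZMod N)ˣ →* C.O) := by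
    have := H.exactHyp (Λ := C.O) (residue_surjective (R := C.O)) (Finset.Subset.refl _)
      (fun _ => 1) ∅ N H.three (by simp)
    simpa [charSq] using this
  obtain ⟨O', _, _, _, _, _, _, _, hl, θ, hθ, hkθ, hinert⟩ :=
    exists_lowering_point H.framed ⟨q, hqT⟩ B.act₀' hact hQ hker hv hO
  -- Frobenius elements
  have hex : ∀ ℓ : ℕ, ∃ A : ValuationSubring Qbar, ∃ σ : GQ,
      ℓ.Prime → A.LiesOverPrime ℓ ∧ A.IsFrobeniusAt σ ℓ := fun ℓ => by
    by_cases hℓ : ℓ.Prime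
    · obtain ⟨A, hA⟩ := Frobenius.exists_liesOverPrime Qbar hℓ
      obtain ⟨σ, hσ⟩ := Frobenius.exists_isFrobeniusAt_qbar hℓ hA
      exact ⟨A, σ, fun _ => ⟨hA, hσ⟩⟩
    · exact ⟨⊤, 1, fun h => absurd h hℓ⟩
  choose A Fr hFr using hex
  let S := (R.levelData V P cl).Sigma
  have hatt := isAttached_pointRep θ hθ hl C.p_mem C.isPadicCyclotomic Fr S
    fun ℓ hℓ hℓS B' hB' σ hσ =>
      trace_frob_eq θ B.act₀' hkθ b hb hℓ hℓS hB' (hFr ℓ hℓ).1 hσ (hFr ℓ hℓ).2
  have hocc := occurs_of_point θ B.act₀' hact hkθ b hb hexact A Fr hFr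
  have hcong : ∀ ℓ : ℕ, ℓ.Prime → ℓ ∉ S →
      traceSystem θ Fr ℓ - algebraMap C.O O' (a ℓ : C.O) ∈ maximalIdeal O' := fun ℓ hℓ hℓS =>
    point_trace_sub_mem PB θ hθ (H.trace_frob ℓ hℓ hℓS _ (hFr ℓ hℓ).1 _ (hFr ℓ hℓ).2)
  -- unramified at `q`, so old there
  have hq3 : q % 3 = 1 := by
    have h1 := hone q hqT
    have := hqp.one_lt
    rw [hp] at h1
    omega
  have : NeZero (N / q) := ⟨hsq.ne_zero⟩
  have hocc' : Engine.Occurs (FractionRing O') (N / q * q) 1 S
      fun ℓ => algebraMap O' (FractionRing O') (traceSystem θ Fr ℓ) := by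
    rw [Nat.div_mul_cancel H.dvd]
    exact hocc
  have hlow := occurs_of_unramified_three hp hq3 hqp (H.framed.ne_p ⟨q, hqT⟩) hnd S
    (traceSystem θ Fr) (pointRep θ hθ) (H.sigma q hqp (H.dvd.mul_right p))
    (H.sigma p Fact.out (dvd_mul_left p N))
    (fun r hr hrd => H.sigma r hr ((hrd.trans hd).mul_right p)) hocc' hatt
    (span_toAdic_eq_top θ hθ hl H.span) fun Pl hPl σ hσ => by
      show Matrix.toLin' ((PB.rep σ).map θ) = 1
      rw [hinert Pl hPl σ hσ, Matrix.toLin'_one]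
      rfl
  have hp' : (p : O') ∈ maximalIdeal O' := by
    rw [← map_natCast (algebraMap C.O O')]
    exact map_nonunit (algebraMap C.O O') _ C.p_mem
  refine isResiduallyModularOfLevel_of_occurs h.delta_ne_zero hp'
    (IsFractionRing.injective O' (FractionRing O')) hlow
    (exists_ne_add_one hcong ?_) (S ∪ W.Δ.natAbs.primeFactors) fun ℓ hℓ hℓT => ?_
  · obtain ⟨l, h1, h2, -, h4, h5⟩ :=
      H.exists_nonEisenstein _ (Finset.Subset.refl _) (Nat.pos_of_ne_zero (NeZero.ne (N / q)))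
    exact ⟨l, h1, h2, h4, h5⟩
  simp only [Finset.mem_union, Nat.mem_primeFactors, hℓ, true_and, ne_eq, Int.natAbs_eq_zero,
    h.delta_ne_zero, not_false_eq_true, and_true, not_or] at hℓT
  have h1 := hcong ℓ hℓ hℓT.1
  rwa [ha ℓ hℓ (fun hd' => hℓT.2 (Int.natCast_dvd.1 hd')), map_intCast] at h1

end Fermat.Agent.General.Lower

end
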